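/-
S34 / Program B' (helper96): the KUMMER DICTIONARY at the root of the geometry side.

A class `x ∈ Pic⁰(F)` killed by `m` is `[D]` with `m D = div u`.  For semilinear automorphisms
`g, h` the class `(h - 1)(g - 1) x` is `[(h - 1)(g - 1) D]` and
`m (h - 1)(g - 1) D = div (h (g u / u) / (g u / u))`.  Hence a statement about ONE function `u`
("`h (g u / u) / (g u / u)` is an `m`-th power up to a function with trivial divisor") gives
`(h - 1)(g - 1) x = 0`; no divisor, no quotient group on the geometry side.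

* `pic0_kummer_fixed`     — the generic statement (any curve, any semilinear automorphisms);
* `KummerB1 M q p`        — the function-field target of the geometry side at level `M`;
* `b1Exact_of_kummerB1`   — `KummerB1 M q p → H27.B1Exact M q p`;
* `KummerB1Pow`, `kummerB1_of_pow` — the variant "`= c · w ^ (p ^ n)`".
-/
import Mathlib
import Fermat.Prelude.Def_ModularCurve_ArithmeticGalois
import Fermat.Agent.S34.H27.Transfer
import Fermat.Agent.S24.Ord

set_option autoImplicit false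

open AlgebraicCurve ModularCurve

noncomputable section

namespace Fermat.Agent.S34.H96

section Generic

variable {K F : Type*} [Field K] [Field F] [Algebra K F]

/-- The order of `g • f` at `w` is the order of `f` at `g⁻¹ • w`. -/
theorem ord_smul_eq (g : SemilinearAut K F) (w : Place K F) (f : F) :
    w.ord (g • f) = (g⁻¹ • w).ord f := by
  have h := SemilinearAut.ord_smul g (g⁻¹ • w) f
  rwa [smul_inv_smul] at h

theorem smul_ne_zero_of_ne_zero (g : SemilinearAut K F) {f : F} (hf : f ≠ 0) : g • f ≠ 0 := by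
  rw [SemilinearAut.smul_def]
  exact (map_ne_zero_iff _ (SemilinearAut.toRingAut g).injective).mpr hf

/-- A class is zero iff a (any) representative is principal. -/
theorem mk_eq_zero_iff (D : Divisor.degZero (K := K) (F := F)) :
    Pic0.mk D = 0 ↔ Divisor.IsPrincipal (D : Divisor K F) :=
  (QuotientAddGroup.eq_zero_iff _).trans AddSubgroup.mem_addSubgroupOf

/-- If `m D = div f` then `m (g D - D) = div (g f / f)`. -/
theorem mul_smul_sub_apply (g : SemilinearAut K F) (D : Divisor K F) (m : ℤ) {f : F} (hf : f ≠ 0)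
    (hD : ∀ v : Place K F, m * D v = v.ord f) (v : Place K F) :
    m * (g • D - D) v = v.ord (g • f / f) := by
  have hgf : g • f ≠ 0 := smul_ne_zero_of_ne_zero g hf
  rw [Finsupp.sub_apply, SemilinearAut.divisor_smul_apply, mul_sub, hD, hD, div_eq_mul_inv,
    v.ord_mul hgf (inv_ne_zero hf), v.ord_inv, ord_smul_eq]
  ring

/-- **Kummer dictionary** (generic form). -/
theorem pic0_kummer_fixed {m : ℕ} (hm : m ≠ 0) (g h : SemilinearAut K F) (x : Pic0 K F)
    (hx : m • x = 0)
    (hK : ∀ u : F, u ≠ 0 → (∀ v : Place K F, (m : ℤ) ∣ v.ord u) →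
      ∃ w : F, w ≠ 0 ∧ ∀ v : Place K F,
        v.ord (h • (g • u / u) / (g • u / u)) = (m : ℤ) * v.ord w) :
    h • (g • x - x) - (g • x - x) = 0 := by
  obtain ⟨D, rfl⟩ := Pic0.mk_surjective x
  have h1 : Pic0.mk (m • D) = 0 := hx
  obtain ⟨u, hu, hDu⟩ := (mk_eq_zero_iff _).mp h1
  have hD : ∀ v : Place K F, (m : ℤ) * (D : Divisor K F) v = v.ord u := by
    intro v
    rw [← hDu v, AddSubgroup.coe_nsmul, Finsupp.smul_apply, nsmul_eq_mul]
  have hgu : g • u ≠ 0 := smul_ne_zero_of_ne_zero g hu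
  have ht0 : g • u / u ≠ 0 := div_ne_zero hgu hu
  have ht := mul_smul_sub_apply g (D : Divisor K F) m hu hD
  have ht' := mul_smul_sub_apply h (g • (D : Divisor K F) - D) m ht0 ht
  obtain ⟨w, hw, hwv⟩ := hK u hu (fun v => ⟨(D : Divisor K F) v, (hD v).symm⟩)
  have e1 : g • Pic0.mk D - Pic0.mk D = Pic0.mk (SemilinearAut.degZeroSMulHom g D - D) := rfl
  rw [e1, SemilinearAut.pic0_smul_mk]
  have e2 : Pic0.mk (SemilinearAut.degZeroSMulHom h (SemilinearAut.degZeroSMulHom g D - D)) -
      Pic0.mk (SemilinearAut.degZeroSMulHom g D - D) =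
      Pic0.mk (SemilinearAut.degZeroSMulHom h (SemilinearAut.degZeroSMulHom g D - D) -
        (SemilinearAut.degZeroSMulHom g D - D)) := rfl
  rw [e2, mk_eq_zero_iff]
  refine ⟨w, hw, fun v => ?_⟩
  have hm' : (m : ℤ) ≠ 0 := by exact_mod_cast hm
  apply mul_left_cancel₀ hm'
  rw [← hwv v, ← ht' v]
  rfl

end Generic

/-! ### The modular instance -/

/-- The algebraic closure of `ℚ`. -/
abbrev Qb : Type := AlgebraicClosure ℚ

/-- The coefficientwise Galois action on the function field of `X₀(M)` over `ℚ̄`. -/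
abbrev gal (M : ℕ) (σ : Qb ≃ₐ[ℚ] Qb) : SemilinearAut Qb (modularFunctionFieldBar M) :=
  arithmeticGalois (modularFunctionFieldFull M) σ

/-- **The function-field target of the geometry side** (Steps 1 + 2 of the chain for `(B1)`):
for `τ, τ'` in the inertia group of a place above `q` and a function `u` whose divisor is
divisible by `p ^ n`, the function `τ'(τ u / u) / (τ u / u)` has the divisor of a `p ^ n`-th
power. -/
def KummerB1 (M q p : ℕ) : Prop :=
  ∀ (n : ℕ) (A : ValuationSubring Qb), A.LiesOverPrime q →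
    ∀ τ ∈ A.inertiaSubgroupIn ℚ, ∀ τ' ∈ A.inertiaSubgroupIn ℚ,
    ∀ u : modularFunctionFieldBar M, u ≠ 0 →
      (∀ v : Place Qb (modularFunctionFieldBar M), ((p ^ n : ℕ) : ℤ) ∣ v.ord u) →
      ∃ w : modularFunctionFieldBar M, w ≠ 0 ∧ ∀ v : Place Qb (modularFunctionFieldBar M),
        v.ord (gal M τ' • (gal M τ • u / u) / (gal M τ • u / u)) = ((p ^ n : ℕ) : ℤ) * v.ord w

/-- The variant with an honest `p ^ n`-th power up to a constant. -/
def KummerB1Pow (M q p : ℕ) : Prop :=
  ∀ (n : ℕ) (A : ValuationSubring Qb), A.LiesOverPrime q →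
    ∀ τ ∈ A.inertiaSubgroupIn ℚ, ∀ τ' ∈ A.inertiaSubgroupIn ℚ,
    ∀ u : modularFunctionFieldBar M, u ≠ 0 →
      (∀ v : Place Qb (modularFunctionFieldBar M), ((p ^ n : ℕ) : ℤ) ∣ v.ord u) →
      ∃ (c : Qb) (w : modularFunctionFieldBar M), c ≠ 0 ∧ w ≠ 0 ∧
        gal M τ' • (gal M τ • u / u) / (gal M τ • u / u) =
          algebraMap Qb (modularFunctionFieldBar M) c * w ^ (p ^ n)

theorem kummerB1_of_pow {M q p : ℕ} (h : KummerB1Pow M q p) : KummerB1 M q p := by
  intro n A hA τ hτ τ' hτ' u hu hdiv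
  obtain ⟨c, w, hc, hw, he⟩ := h n A hA τ hτ τ' hτ' u hu hdiv
  refine ⟨w, hw, fun v => ?_⟩
  have hc' : algebraMap Qb (modularFunctionFieldBar M) c ≠ 0 :=
    (map_ne_zero_iff _ (algebraMap Qb (modularFunctionFieldBar M)).injective).mpr hc
  rw [he, v.ord_mul hc' (pow_ne_zero _ hw), Fermat.Agent.S24.ord_algebraMap v hc, zero_add, ← zpow_natCast,
    v.ord_zpow]

/-- **Kummer dictionary**: the function-field statement gives `(B1)` in its exact form. -/
theorem b1Exact_of_kummerB1 {M q p : ℕ} (hp : p ≠ 0) (h : KummerB1 M q p) :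
    Fermat.Agent.S34.H27.B1Exact M q p := by
  intro n A hA τ hτ x hx
  have key := pic0_kummer_fixed (pow_ne_zero n hp) (gal M τ) (gal M τ) x hx
    (h n A hA τ hτ τ hτ)
  have e : τ • τ • x - 2 • τ • x + x = τ • (τ • x - x) - (τ • x - x) := by
    rw [smul_sub, two_nsmul]
    abel
  rw [e]
  exact key

/-- The mixed form `(τ' - 1)(τ - 1) = 0` on the `p ^ n`-torsion. -/
theorem smul_sub_eq_zero_of_kummerB1 {M q p : ℕ} (hp : p ≠ 0) (h : KummerB1 M q p) (n : ℕ)
    (A : ValuationSubring Qb) (hA : A.LiesOverPrime q)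
    (τ : Qb ≃ₐ[ℚ] Qb) (hτ : τ ∈ A.inertiaSubgroupIn ℚ)
    (τ' : Qb ≃ₐ[ℚ] Qb) (hτ' : τ' ∈ A.inertiaSubgroupIn ℚ)
    (x : JZero M) (hx : p ^ n • x = 0) :
    τ' • (τ • x - x) - (τ • x - x) = 0 :=
  pic0_kummer_fixed (pow_ne_zero n hp) (gal M τ) (gal M τ') x hx (h n A hA τ hτ τ' hτ')

end Fermat.Agent.S34.H96
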